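import Mathlib
import Fermat.Agent.S54.FrobExists

/-!
# MOONSHOT S52 (Program F), block K1, leaf B (PLACE): elements of a valuation subring over a
valuation ring are quotients of integral elements

`R` a valuation ring with fraction field `F`, `L / F` an algebraic extension, `P` a valuation
subring of `L` dominating `R`. Relative version of `S54/FrobExists.exists_integral_div` (there
`R = ℤ`): every `x ∈ P` is `b / s` with `b`, `s` integral over `R` and `s` a unit of `P`.
-/

set_option autoImplicit false

namespace Fermat.Agent.SW.Place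

open Polynomial IsLocalRing
open Fermat.Agent.S54.FrobExists (hornerU hornerU_zero hornerU_succ hornerU_mul_pow hornerU_eq_add
  hornerU_mem_of_inv_mem hornerU_mem_of_mem)

variable {R F L : Type*} [CommRing R] [IsDomain R] [ValuationRing R] [Field F] [Field L]
  [Algebra R F] [IsFractionRing R F] [Algebra F L] [Algebra R L] [IsScalarTower R F L]

/-- `P` dominates (the image of) `R`. -/
structure Dominates (R : Type*) [CommRing R] {L : Type*} [Field L] [Algebra R L]
    (P : ValuationSubring L) : Prop where
  mem : ∀ r : R, algebraMap R L r ∈ P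
  isUnit_of_valuation_eq_one : ∀ r : R, P.valuation (algebraMap R L r) = 1 → IsUnit r

omit [IsDomain R] [ValuationRing R] in
theorem Dominates.valuation_lt_one {P : ValuationSubring L} (hP : Dominates R P) {r : R}
    (hr : ¬ IsUnit r) : P.valuation (algebraMap R L r) < 1 :=
  lt_of_le_of_ne ((P.valuation_le_one_iff _).mpr (hP.mem r))
    (fun h => hr (hP.isUnit_of_valuation_eq_one r h))

omit [IsDomain R] [ValuationRing R] in
/-- Elements integral over `R` lie in every valuation subring containing the image of `R`. -/
theorem integral_mem_of_mem {W : ValuationSubring L} (hW : ∀ r : R, algebraMap R L r ∈ W) {b : L}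
    (hb : IsIntegral R b) : b ∈ W := by
  obtain ⟨p, hmon, hp⟩ := hb
  let f : R →+* W := (algebraMap R L).codRestrict W.toSubring hW
  have h1 : IsIntegral W b := by
    refine ⟨p.map f, hmon.map f, ?_⟩
    rw [eval₂_map]
    have : (algebraMap W L).comp f = algebraMap R L := by
      ext r; rfl
    rw [this]
    exact hp
  obtain ⟨y, hy⟩ := IsIntegrallyClosed.isIntegral_iff.mp h1
  rw [← hy]
  exact y.2

/-- The coefficient sequence of a polynomial over `R`, in `L`. -/
noncomputable def coeffSeqR (p : R[X]) : ℕ → L := fun i => algebraMap R L (p.coeff i)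

omit [IsDomain R] [ValuationRing R] [Field F] [Algebra R F] [IsFractionRing R F] [Algebra F L]
  [IsScalarTower R F L] in
theorem hornerU_coeffSeqR_eq_zero {x : L} (hx : x ≠ 0) (p : R[X]) (hp : aeval x p = 0) (k : ℕ)
    (hk : p.natDegree < k) : hornerU (coeffSeqR (L := L) p) x k = 0 := by
  have h := hornerU_mul_pow (coeffSeqR (L := L) p) hx k
  have h2 : ∑ i ∈ Finset.range k, coeffSeqR (L := L) p i * x ^ i = aeval x p := by
    rw [aeval_eq_sum_range' hk]
    refine Finset.sum_congr rfl fun i _ => ?_
    simp [coeffSeqR, Algebra.smul_def]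
  rw [h2, hp, neg_zero] at h
  exact (mul_eq_zero.mp h).resolve_right (pow_ne_zero k hx)

omit [IsDomain R] [ValuationRing R] [Field F] [Algebra R F] [IsFractionRing R F] [Algebra F L]
  [IsScalarTower R F L] in
/-- All the Horner partial sums of a polynomial over `R` vanishing at `x` are integral over `R`. -/
theorem isIntegral_hornerU_R {x : L} (hx : x ≠ 0) (p : R[X]) (hp : aeval x p = 0) (k : ℕ) :
    IsIntegral R (hornerU (coeffSeqR (L := L) p) x k) := by
  by_contra hcon
  set R' : Subring L := (integralClosure R L).toSubring with hR'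
  have hnot : hornerU (coeffSeqR (L := L) p) x k ∉ R' := fun h => hcon h
  have : IsIntegrallyClosedIn R' L := inferInstanceAs (IsIntegrallyClosedIn (integralClosure R L) L)
  obtain ⟨W, hle, hW⟩ := Subring.exists_le_valuationSubring_of_isIntegrallyClosedIn hnot
  apply hW
  have ha : ∀ i, coeffSeqR (L := L) p i ∈ W.toSubring := fun i =>
    hle (show algebraMap R L (p.coeff i) ∈ R' from isIntegral_algebraMap)
  rcases W.mem_or_inv_mem x with h | h
  · exact hornerU_mem_of_mem _ hx W.toSubring ha h (p.natDegree + 1)
      (fun j hj => hornerU_coeffSeqR_eq_zero hx p hp j (by omega)) k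
  · exact hornerU_mem_of_inv_mem _ x W.toSubring ha h k

omit [Field F] [Algebra R F] [IsFractionRing R F] [Algebra F L] [Algebra R L]
  [IsScalarTower R F L] in
/-- A nonzero polynomial over a valuation ring is a constant times a polynomial with a unit
coefficient. -/
theorem exists_eq_C_mul_of_ne_zero {p : R[X]} (hp : p ≠ 0) :
    ∃ (c : R) (q : R[X]) (i : ℕ), c ≠ 0 ∧ p = C c * q ∧ q.coeff i = 1 := by
  classical
  -- a coefficient dividing all the others
  have key : ∀ s : Finset ℕ, s.Nonempty → ∃ i ∈ s, ∀ j ∈ s, p.coeff i ∣ p.coeff j := by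
    intro s hs
    induction hs using Finset.Nonempty.cons_induction with
    | singleton a => exact ⟨a, by simp, by simp⟩
    | cons a s ha hs ih =>
      obtain ⟨i, his, hi⟩ := ih
      rcases ValuationRing.dvd_total (p.coeff i) (p.coeff a) with h | h
      · refine ⟨i, by simp [his], fun j hj => ?_⟩
        rcases Finset.mem_cons.mp hj with rfl | hj
        · exact h
        · exact hi j hj
      · refine ⟨a, by simp, fun j hj => ?_⟩
        rcases Finset.mem_cons.mp hj with rfl | hj
        · exact dvd_rfl
        · exact h.trans (hi j hj)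
  have hsupp : p.support.Nonempty := by
    rw [Finset.nonempty_iff_ne_empty, ne_eq, support_eq_empty]; exact hp
  obtain ⟨i, his, hi⟩ := key p.support hsupp
  have hci : p.coeff i ≠ 0 := mem_support_iff.mp his
  have hall : ∀ j, p.coeff i ∣ p.coeff j := by
    intro j
    by_cases hj : j ∈ p.support
    · exact hi j hj
    · rw [notMem_support_iff.mp hj]; exact dvd_zero _
  have hdvd : C (p.coeff i) ∣ p := (C_dvd_iff_dvd_coeff _ _).mpr hall
  obtain ⟨q, hq⟩ := hdvd
  refine ⟨p.coeff i, q, i, hci, hq, ?_⟩
  have := congrArg (fun f => f.coeff i) hq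
  simp only [coeff_C_mul] at this
  exact (mul_left_cancel₀ hci (by rw [mul_one]; exact this)).symm

/-- **Key lemma.** Every element of `P` is a quotient of two elements integral over `R` whose
denominator is a unit of `P`. -/
theorem exists_integral_div [Algebra.IsAlgebraic F L] {P : ValuationSubring L}
    (hP : Dominates R P) {x : L} (hx : x ∈ P) :
    ∃ b s : L, IsIntegral R b ∧ IsIntegral R s ∧ P.valuation s = 1 ∧ x = b / s := by
  rcases eq_or_ne x 0 with rfl | hx0
  · exact ⟨0, 1, isIntegral_zero, isIntegral_one, by simp, by simp⟩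
  have hinjRL : Function.Injective (algebraMap R L) := by
    rw [IsScalarTower.algebraMap_eq R F L]
    exact (algebraMap F L).injective.comp (IsFractionRing.injective R F)
  have hxalg : IsAlgebraic R x :=
    (IsFractionRing.isAlgebraic_iff R F L).mpr (Algebra.IsAlgebraic.isAlgebraic x)
  obtain ⟨p0, hp0, hp0x⟩ := hxalg
  obtain ⟨c, p, i0, hc, hp0eq, hpi⟩ := exists_eq_C_mul_of_ne_zero hp0
  have hpx : aeval x p = 0 := by
    rw [hp0eq, map_mul, aeval_C] at hp0x
    exact (mul_eq_zero.mp hp0x).resolve_left
      (fun h => hc (hinjRL (by rw [h, map_zero])))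
  have hu_int : ∀ k, IsIntegral R (hornerU (coeffSeqR (L := L) p) x k) :=
    isIntegral_hornerU_R hx0 p hpx
  have hu_mem : ∀ k, hornerU (coeffSeqR (L := L) p) x k ∈ P :=
    fun k => integral_mem_of_mem hP.mem (hu_int k)
  have hvx : P.valuation x ≤ 1 := (P.valuation_le_one_iff x).mpr hx
  -- some partial sum is a unit of `P`
  have hex : ∃ r, ¬ P.valuation (hornerU (coeffSeqR (L := L) p) x r) < 1 := by
    by_contra hall
    push Not at hall
    have hcoef : ∀ i, P.valuation (coeffSeqR (L := L) p i) < 1 := by
      intro i
      have h1 : coeffSeqR (L := L) p i =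
          hornerU (coeffSeqR (L := L) p) x i - x * hornerU (coeffSeqR (L := L) p) x (i + 1) := by
        rw [hornerU_eq_add (coeffSeqR (L := L) p) hx0 i]; ring
      rw [h1]
      refine Valuation.map_sub_lt _ (hall i) ?_
      rw [map_mul]
      exact Right.mul_lt_one_of_le_of_lt hvx (hall (i + 1))
    have := hcoef i0
    rw [coeffSeqR, hpi, map_one, map_one] at this
    exact lt_irrefl _ this
  obtain ⟨r, hr⟩ := hex
  have hr1 : P.valuation (hornerU (coeffSeqR (L := L) p) x r) = 1 :=
    le_antisymm ((P.valuation_le_one_iff _).mpr (hu_mem r)) (not_lt.mp hr)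
  cases r with
  | zero =>
    rw [hornerU_zero, map_zero] at hr1
    exact absurd hr1 zero_ne_one
  | succ r =>
    have hs0 : hornerU (coeffSeqR (L := L) p) x (r + 1) ≠ 0 := by
      intro h0
      rw [h0, map_zero] at hr1
      exact zero_ne_one hr1
    refine ⟨hornerU (coeffSeqR (L := L) p) x r - coeffSeqR (L := L) p r,
      hornerU (coeffSeqR (L := L) p) x (r + 1), ?_, hu_int _, hr1, ?_⟩
    · exact (hu_int r).sub isIntegral_algebraMap
    · rw [eq_div_iff hs0, hornerU_succ]
      field_simp

end Fermat.Agent.SW.Place
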