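import Mathlib
import Fermat.Agent.SW.Place.Horner

/-!
# MOONSHOT S52 (Program F), block K1, leaf B (PLACE): the centre of a valuation subring on the
integral closure

`R` a valuation ring with fraction field `F`, `L / F` algebraic, `B := integralClosure R L`,
`P` a valuation subring of `L` dominating `R`.

* `inclB P : B →+* P`, `centerIdeal P : Ideal B` (maximal, over the maximal ideal of `R`);
* `exists_integral_sub_lt`: residue classes of `P` are represented by elements of `B`;
* `valuationSubring_eq_of_centerIdeal_eq`: `P` is determined by its centre;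
* `resEquiv : B ⧸ centerIdeal P ≃+* ResidueField P`.
-/

set_option autoImplicit false

namespace Fermat.Agent.SW.Place

open Polynomial IsLocalRing

variable {R F L : Type*} [CommRing R] [IsDomain R] [ValuationRing R] [Field F] [Field L]
  [Algebra R F] [IsFractionRing R F] [Algebra F L] [Algebra R L] [IsScalarTower R F L]

section Center

variable {P : ValuationSubring L} (hP : Dominates R P)

/-- The inclusion of the integral closure of `R` in `L` into `P`. -/
noncomputable def inclB : integralClosure R L →+* P :=
  (algebraMap (integralClosure R L) L).codRestrict P.toSubring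
    (fun b => integral_mem_of_mem hP.mem b.2)

omit [IsDomain R] [ValuationRing R] in
@[simp]
theorem coe_inclB (b : integralClosure R L) : ((inclB hP b : P) : L) = (b : L) := rfl

/-- The centre of `P` on the integral closure of `R`. -/
noncomputable def centerIdeal : Ideal (integralClosure R L) :=
  (maximalIdeal P).comap (inclB hP)

omit [IsDomain R] [ValuationRing R] in
theorem mem_centerIdeal_iff (b : integralClosure R L) :
    b ∈ centerIdeal hP ↔ P.valuation (b : L) < 1 := by
  show inclB hP b ∈ maximalIdeal P ↔ _
  rw [P.valuation_lt_one_iff, coe_inclB]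

omit [IsDomain R] [ValuationRing R] in
instance centerIdeal_isPrime : (centerIdeal hP).IsPrime :=
  Ideal.comap_isPrime (inclB hP) (maximalIdeal P)

omit [IsDomain R] [ValuationRing R] in
theorem valuation_eq_one_of_notMem_centerIdeal {b : integralClosure R L}
    (hb : b ∉ centerIdeal hP) : P.valuation (b : L) = 1 := by
  rw [mem_centerIdeal_iff, not_lt] at hb
  exact le_antisymm ((P.valuation_le_one_iff _).mpr (integral_mem_of_mem hP.mem b.2)) hb

theorem under_centerIdeal_eq : (centerIdeal hP).under R = maximalIdeal R := by
  ext r
  rw [Ideal.under_def, Ideal.mem_comap, mem_centerIdeal_iff, mem_maximalIdeal, mem_nonunits_iff]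
  show P.valuation (algebraMap R L r) < 1 ↔ ¬ IsUnit r
  constructor
  · intro hlt hu
    have : P.valuation (algebraMap R L r) = 1 := by
      obtain ⟨u, rfl⟩ := hu
      have h1 := (P.valuation_le_one_iff _).mpr (hP.mem (u : R))
      have h2 := (P.valuation_le_one_iff _).mpr (hP.mem ((u⁻¹ : Rˣ) : R))
      have h3 : P.valuation (algebraMap R L (u : R)) * P.valuation (algebraMap R L ((u⁻¹ : Rˣ) : R))
          = 1 := by
        rw [← map_mul, ← map_mul, Units.mul_inv, map_one, map_one]
      refine le_antisymm h1 ?_
      by_contra hlt'
      rw [not_le] at hlt'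
      have : P.valuation (algebraMap R L (u : R)) *
          P.valuation (algebraMap R L ((u⁻¹ : Rˣ) : R)) < 1 :=
        mul_lt_one_of_lt_of_le hlt' h2
      rw [h3] at this
      exact lt_irrefl _ this
    rw [this] at hlt
    exact lt_irrefl _ hlt
  · intro hnu
    exact hP.valuation_lt_one hnu

theorem centerIdeal_isMaximal : (centerIdeal hP).IsMaximal := by
  apply Ideal.isMaximal_of_isIntegral_of_isMaximal_comap (R := R)
  have h := under_centerIdeal_eq hP
  rw [Ideal.under_def] at h
  rw [h]
  exact maximalIdeal.isMaximal R

variable (F)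

include hP in
/-- Every element of `P` is congruent to an element integral over `R` modulo the maximal ideal. -/
theorem exists_integral_sub_lt [Algebra.IsAlgebraic F L] {x : L} (hx : x ∈ P) :
    ∃ c : integralClosure R L, P.valuation (x - (c : L)) < 1 := by
  obtain ⟨b, s, hb, hs, hvs, rfl⟩ := exists_integral_div (F := F) hP hx
  have hs0 : s ≠ 0 := by
    intro h0
    rw [h0, map_zero] at hvs
    exact zero_ne_one hvs
  have hsQ : (⟨s, hs⟩ : integralClosure R L) ∉ centerIdeal hP := by
    rw [mem_centerIdeal_iff, hvs]
    exact lt_irrefl _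
  obtain ⟨t, i, hi, hti⟩ := (centerIdeal_isMaximal hP).exists_inv hsQ
  refine ⟨⟨b, hb⟩ * t, ?_⟩
  have hi' : P.valuation (i : L) < 1 := (mem_centerIdeal_iff hP i).mp hi
  have hti' : (t : L) * s + (i : L) = 1 := by
    have := congrArg (fun z : integralClosure R L => (z : L)) hti
    simpa using this
  have hkey : b / s - ((⟨b, hb⟩ * t : integralClosure R L) : L) = (b / s) * (i : L) := by
    have : ((⟨b, hb⟩ * t : integralClosure R L) : L) = b * (t : L) := rfl
    rw [this]
    have h1 : (i : L) = 1 - (t : L) * s := by rw [← hti']; ring
    rw [h1]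
    field_simp
  rw [hkey, map_mul]
  exact Right.mul_lt_one_of_le_of_lt ((P.valuation_le_one_iff _).mpr hx) hi'

/-- A valuation subring dominating `R` is determined by its centre (one inclusion). -/
theorem le_of_centerIdeal_eq [Algebra.IsAlgebraic F L] {P' : ValuationSubring L}
    (hP' : Dominates R P') (h : centerIdeal hP = centerIdeal hP') : P ≤ P' := by
  intro x hx
  obtain ⟨b, s, hb, hs, hvs, rfl⟩ := exists_integral_div (F := F) hP hx
  have hsQ : (⟨s, hs⟩ : integralClosure R L) ∉ centerIdeal hP' := by
    rw [← h, mem_centerIdeal_iff, hvs]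
    exact lt_irrefl _
  have h1 : P'.valuation s = 1 := valuation_eq_one_of_notMem_centerIdeal hP' hsQ
  have h2 : P'.valuation b ≤ 1 := (P'.valuation_le_one_iff _).mpr (integral_mem_of_mem hP'.mem hb)
  rw [← P'.valuation_le_one_iff, map_div₀, h1, div_one]
  exact h2

theorem valuationSubring_eq_of_centerIdeal_eq [Algebra.IsAlgebraic F L] {P' : ValuationSubring L}
    (hP' : Dominates R P') (h : centerIdeal hP = centerIdeal hP') : P = P' :=
  le_antisymm (le_of_centerIdeal_eq F hP hP' h) (le_of_centerIdeal_eq F hP' hP h.symm)

/-- The residue field of `P` is the quotient of the integral closure by the centre. -/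
noncomputable def resEquiv [Algebra.IsAlgebraic F L] :
    (integralClosure R L ⧸ centerIdeal hP) ≃+* ResidueField P :=
  RingEquiv.ofBijective
    (Ideal.Quotient.lift (centerIdeal hP) ((residue P).comp (inclB hP)) (fun b hb => by
      rw [RingHom.comp_apply, residue_eq_zero_iff]
      exact hb))
    (by
      constructor
      · rw [injective_iff_map_eq_zero]
        intro y hy
        obtain ⟨b, rfl⟩ := Ideal.Quotient.mk_surjective y
        rw [Ideal.Quotient.lift_mk, RingHom.comp_apply, residue_eq_zero_iff] at hy
        exact Ideal.Quotient.eq_zero_iff_mem.mpr hy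
      · intro y
        obtain ⟨x, rfl⟩ := residue_surjective y
        obtain ⟨c, hc⟩ := exists_integral_sub_lt F hP x.2
        refine ⟨Ideal.Quotient.mk _ c, ?_⟩
        rw [Ideal.Quotient.lift_mk, RingHom.comp_apply, ← sub_eq_zero, ← map_sub,
          residue_eq_zero_iff, P.valuation_lt_one_iff]
        have : ((inclB hP c - x : P) : L) = (c : L) - (x : L) := rfl
        rw [this, ← neg_sub, Valuation.map_neg]
        exact hc)

theorem resEquiv_mk [Algebra.IsAlgebraic F L] (b : integralClosure R L) :
    resEquiv F hP (Ideal.Quotient.mk _ b) = residue P (inclB hP b) := rfl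

end Center

end Fermat.Agent.SW.Place
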