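import Mathlib
import Fermat.Agent.SW.Place.Center

/-!
# MOONSHOT S52 (Program F), block K1, leaf B (PLACE): conjugacy and decomposition groups

`R` a valuation ring with fraction field `F`, `L / F` a Galois extension (possibly infinite),
`P` a valuation subring of `L` dominating `R`.

* `Dominates.smul`: `σ • P` dominates `R` for `σ : L ≃ₐ[F] L`;
* `exists_smul_eq`: two valuation subrings of `L` dominating `R` are conjugate under `Gal(L/F)`;
* `exists_mem_decomposition_residue_eq`: every ring automorphism of the residue field of `P` which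
  fixes the image of `R` is induced by an element of the decomposition group of `P`.
-/

set_option autoImplicit false
set_option linter.unusedSectionVars false
set_option linter.unusedVariables false
set_option linter.style.haveILetI false

namespace Fermat.Agent.SW.Place

open Polynomial IsLocalRing

open scoped Pointwise

variable {R F L : Type*} [CommRing R] [IsDomain R] [ValuationRing R] [Field F] [Field L]
  [Algebra R F] [IsFractionRing R F] [Algebra F L] [Algebra R L] [IsScalarTower R F L]

section Basic

variable {P : ValuationSubring L}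

theorem valuation_eq_one_iff_mem {y : L} (hy : y ≠ 0) :
    P.valuation y = 1 ↔ y ∈ P ∧ y⁻¹ ∈ P := by
  rw [← P.valuation_le_one_iff, ← P.valuation_le_one_iff, map_inv₀]
  constructor
  · intro h
    rw [h]
    simp
  · rintro ⟨h1, h2⟩
    have hv0 : P.valuation y ≠ 0 := (Valuation.ne_zero_iff _).mpr hy
    refine le_antisymm h1 ?_
    rwa [inv_le_one₀ (zero_lt_iff.mpr hv0)] at h2

theorem mem_nonunits_smul_iff (σ : L ≃ₐ[F] L) (y : L) :
    y ∈ (σ • P).nonunits ↔ σ⁻¹ y ∈ P.nonunits := by
  rw [ValuationSubring.mem_nonunits_iff_or, ValuationSubring.mem_nonunits_iff_or,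
    ValuationSubring.mem_pointwise_smul_iff_inv_smul_mem]
  have h1 : σ⁻¹ y = 0 ↔ y = 0 := map_eq_zero_iff _ (σ⁻¹).injective
  have h2 : σ⁻¹ • y⁻¹ = (σ⁻¹ y)⁻¹ := map_inv₀ (σ⁻¹) y
  rw [h1, h2]

theorem algEquiv_algebraMap (σ : L ≃ₐ[F] L) (r : R) :
    σ (algebraMap R L r) = algebraMap R L r := by
  rw [IsScalarTower.algebraMap_apply R F L, σ.commutes]

/-- A Galois conjugate of a valuation subring dominating `R` dominates `R`. -/
theorem Dominates.smul (hP : Dominates R P) (σ : L ≃ₐ[F] L) : Dominates R (σ • P) where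
  mem r := by
    rw [ValuationSubring.mem_pointwise_smul_iff_inv_smul_mem]
    show σ⁻¹ (algebraMap R L r) ∈ P
    rw [algEquiv_algebraMap]
    exact hP.mem r
  isUnit_of_valuation_eq_one r hr := by
    apply hP.isUnit_of_valuation_eq_one
    have hr0 : algebraMap R L r ≠ 0 := by
      intro h0
      rw [h0, map_zero] at hr
      exact zero_ne_one hr
    rw [valuation_eq_one_iff_mem hr0] at hr ⊢
    obtain ⟨h1, h2⟩ := hr
    rw [ValuationSubring.mem_pointwise_smul_iff_inv_smul_mem] at h1 h2
    have e1 : σ⁻¹ • algebraMap R L r = algebraMap R L r := algEquiv_algebraMap (σ⁻¹) r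
    have e2 : σ⁻¹ • (algebraMap R L r)⁻¹ = (algebraMap R L r)⁻¹ := by
      show σ⁻¹ ((algebraMap R L r)⁻¹) = _
      rw [map_inv₀, algEquiv_algebraMap]
    rw [e1] at h1
    rw [e2] at h2
    exact ⟨h1, h2⟩

end Basic

section Galois

/-- The Galois group commutes with scalars from `R`. -/
instance smulCommClass_algEquiv : SMulCommClass (L ≃ₐ[F] L) R L where
  smul_comm g r x := by
    show g (r • x) = r • g x
    rw [← algebraMap_smul F r x, ← algebraMap_smul F r (g x), map_smul]

variable {P : ValuationSubring L}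

theorem centerIdeal_smul (hP : Dominates R P) (σ : L ≃ₐ[F] L) :
    centerIdeal (hP.smul σ) = σ • centerIdeal hP := by
  ext b
  rw [Ideal.mem_pointwise_smul_iff_inv_smul_mem, mem_centerIdeal_iff, mem_centerIdeal_iff,
    ← ValuationSubring.mem_nonunits_iff, ← ValuationSubring.mem_nonunits_iff,
    mem_nonunits_smul_iff]
  rfl

variable [IsGalois F L]

/-- The integral closure of `R` in `L`, with the discrete topology, is a continuous module under
the Galois group. -/
theorem continuousSMul_integralClosure :
    letI : TopologicalSpace (integralClosure R L) := ⊥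
    ContinuousSMul (L ≃ₐ[F] L) (integralClosure R L) := by
  letI : TopologicalSpace (integralClosure R L) := ⊥
  haveI : DiscreteTopology (integralClosure R L) := ⟨rfl⟩
  rw [continuousSMul_iff_stabilizer_isOpen]
  intro b
  have h : (MulAction.stabilizer (L ≃ₐ[F] L) b : Set (L ≃ₐ[F] L)) =
      (MulAction.stabilizer (L ≃ₐ[F] L) (b : L) : Set (L ≃ₐ[F] L)) := by
    ext g
    simp [MulAction.mem_stabilizer_iff, Subtype.ext_iff]
  rw [h]
  exact stabilizer_isOpen_of_isIntegral (K := F) (b : L)

/-- An element of `L` fixed by the Galois group lies in `F`. -/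
theorem mem_of_forall_algEquiv_eq {b : L} (hb : ∀ g : L ≃ₐ[F] L, g b = b) :
    ∃ e : F, algebraMap F L e = b := by
  have h1 : b ∈ IntermediateField.fixedField (⊤ : Subgroup (L ≃ₐ[F] L)) := by
    rintro ⟨g, -⟩
    exact hb g
  have h2 : IntermediateField.fixedField (⊤ : Subgroup (L ≃ₐ[F] L)) = ⊥ := by
    rw [← IntermediateField.fixingSubgroup_bot]
    exact InfiniteGalois.fixedField_fixingSubgroup ⊥
  rw [h2, IntermediateField.mem_bot] at h1
  exact h1

/-- The fixed points of the Galois group on the integral closure of `R` are the elements of `R`. -/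
theorem isInvariant_integralClosure :
    Algebra.IsInvariant R (integralClosure R L) (L ≃ₐ[F] L) := by
  refine ⟨fun b hb => ?_⟩
  obtain ⟨e, he⟩ := mem_of_forall_algEquiv_eq (F := F) (b := (b : L)) (fun g => by
    have := congrArg (fun z : integralClosure R L => (z : L)) (hb g)
    simpa using this)
  have h3 : IsIntegral R (algebraMap F L e) := he ▸ b.2
  rw [isIntegral_algebraMap_iff (algebraMap F L).injective] at h3
  obtain ⟨r, hr⟩ := IsIntegrallyClosed.isIntegral_iff.mp h3
  refine ⟨r, Subtype.ext ?_⟩
  rw [← he, ← hr]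
  exact (IsScalarTower.algebraMap_apply R F L r)

/-- **Conjugacy.** Two valuation subrings of `L` dominating `R` are conjugate under the Galois
group. -/
theorem exists_smul_eq {P' : ValuationSubring L} (hP : Dominates R P) (hP' : Dominates R P') :
    ∃ g : L ≃ₐ[F] L, g • P = P' := by
  letI : TopologicalSpace (integralClosure R L) := ⊥
  haveI : DiscreteTopology (integralClosure R L) := ⟨rfl⟩
  haveI : ContinuousSMul (L ≃ₐ[F] L) (integralClosure R L) :=
    continuousSMul_integralClosure (R := R) (F := F) (L := L)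
  haveI : Algebra.IsInvariant R (integralClosure R L) (L ≃ₐ[F] L) := isInvariant_integralClosure
  have hunder : (centerIdeal hP).under R = (centerIdeal hP').under R := by
    rw [under_centerIdeal_eq, under_centerIdeal_eq]
  obtain ⟨g, hg⟩ := Algebra.IsInvariant.exists_smul_of_under_eq_of_profinite
    (A := R) (G := L ≃ₐ[F] L) (centerIdeal hP) (centerIdeal hP') hunder
  refine ⟨g, ?_⟩
  apply valuationSubring_eq_of_centerIdeal_eq F (hP.smul g) hP'
  rw [centerIdeal_smul hP g, hg]

/-- The stabiliser of the centre is contained in the decomposition group. -/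
theorem mem_decompositionSubgroup_of_smul_centerIdeal_eq (hP : Dominates R P) (σ : L ≃ₐ[F] L)
    (hσ : σ • centerIdeal hP = centerIdeal hP) : σ ∈ P.decompositionSubgroup F := by
  show σ • P = P
  apply valuationSubring_eq_of_centerIdeal_eq F (hP.smul σ) hP
  rw [centerIdeal_smul hP σ, hσ]

theorem apply_mem_of_mem_decomposition {σ : L ≃ₐ[F] L} (hσ : σ ∈ P.decompositionSubgroup F)
    {a : L} (ha : a ∈ P) : σ a ∈ P := by
  have h : σ • P = P := hσ
  rw [← h]
  exact ValuationSubring.smul_mem_pointwise_smul σ a P ha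

theorem valuation_apply_lt_one_of_mem_decomposition {σ : L ≃ₐ[F] L}
    (hσ : σ ∈ P.decompositionSubgroup F) {a : L} (ha : P.valuation a < 1) :
    P.valuation (σ a) < 1 := by
  have h : σ • P = P := hσ
  rw [← ValuationSubring.mem_nonunits_iff] at ha ⊢
  have h2 : σ a ∈ (σ • P).nonunits := by
    rw [mem_nonunits_smul_iff]
    show σ⁻¹ (σ a) ∈ P.nonunits
    have : σ⁻¹ (σ a) = a := σ.symm_apply_apply a
    rw [this]
    exact ha
  rwa [h] at h2

/-- **Surjectivity of the decomposition group onto the automorphisms of the residue field.** -/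
theorem exists_mem_decomposition_residue_eq (hP : Dominates R P)
    (τ : ResidueField P ≃+* ResidueField P)
    (hτ : ∀ r : R, τ (residue P ⟨algebraMap R L r, hP.mem r⟩)
      = residue P ⟨algebraMap R L r, hP.mem r⟩) :
    ∃ (σ : L ≃ₐ[F] L) (hσ : σ ∈ P.decompositionSubgroup F), ∀ x : P,
      τ (residue P x) = residue P ⟨σ x, apply_mem_of_mem_decomposition hσ x.2⟩ := by
  letI : TopologicalSpace (integralClosure R L) := ⊥
  haveI : DiscreteTopology (integralClosure R L) := ⟨rfl⟩
  haveI : ContinuousSMul (L ≃ₐ[F] L) (integralClosure R L) :=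
    continuousSMul_integralClosure (R := R) (F := F) (L := L)
  haveI : Algebra.IsInvariant R (integralClosure R L) (L ≃ₐ[F] L) := isInvariant_integralClosure
  haveI hlies : (centerIdeal hP).LiesOver (maximalIdeal R) := ⟨(under_centerIdeal_eq hP).symm⟩
  set Q := centerIdeal hP with hQ
  -- transport `τ` to the quotient of the integral closure
  let e := resEquiv F hP
  let τ' : (integralClosure R L ⧸ Q) ≃+* (integralClosure R L ⧸ Q) := (e.trans τ).trans e.symm
  let τ'' : (integralClosure R L ⧸ Q) ≃ₐ[R ⧸ maximalIdeal R] (integralClosure R L ⧸ Q) :=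
    AlgEquiv.ofRingEquiv (f := τ') (by
      intro a
      obtain ⟨r, rfl⟩ := Ideal.Quotient.mk_surjective a
      rw [Ideal.Quotient.algebraMap_mk_of_liesOver]
      show e.symm (τ (e (Ideal.Quotient.mk Q (algebraMap R (integralClosure R L) r)))) = _
      rw [RingEquiv.symm_apply_eq]
      have h1 : e (Ideal.Quotient.mk Q (algebraMap R (integralClosure R L) r))
          = residue P ⟨algebraMap R L r, hP.mem r⟩ := rfl
      rw [h1, hτ r])
  obtain ⟨⟨σ, hσ⟩, hσe⟩ := Ideal.Quotient.stabilizerHom_surjective_of_profinite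
    (G := L ≃ₐ[F] L) (maximalIdeal R) Q τ''
  have hσD : σ ∈ P.decompositionSubgroup F :=
    mem_decompositionSubgroup_of_smul_centerIdeal_eq hP σ hσ
  refine ⟨σ, hσD, fun x => ?_⟩
  obtain ⟨c, hc⟩ := exists_integral_sub_lt F hP x.2
  have hxc : residue P x = residue P (inclB hP c) := by
    rw [← sub_eq_zero, ← map_sub, residue_eq_zero_iff, P.valuation_lt_one_iff]
    exact hc
  have hxc' : residue P ⟨σ x, apply_mem_of_mem_decomposition hσD x.2⟩
      = residue P (inclB hP (σ • c)) := by
    rw [← sub_eq_zero, ← map_sub, residue_eq_zero_iff, P.valuation_lt_one_iff]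
    have : ((⟨σ x, apply_mem_of_mem_decomposition hσD x.2⟩ - inclB hP (σ • c) : P) : L)
        = σ ((x : L) - (c : L)) := by
      rw [map_sub]; rfl
    rw [this]
    exact valuation_apply_lt_one_of_mem_decomposition hσD hc
  rw [hxc, hxc']
  have h4 : τ'' (Ideal.Quotient.mk Q c) = Ideal.Quotient.mk Q (σ • c) := by
    rw [← hσe, Ideal.Quotient.stabilizerHom_apply]
    rfl
  have h5 : e.symm (τ (e (Ideal.Quotient.mk Q c))) = Ideal.Quotient.mk Q (σ • c) := h4
  rw [RingEquiv.symm_apply_eq] at h5
  exact h5

end Galois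

end Fermat.Agent.SW.Place
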